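-- Statement S23: S₂(Γ₀(N)) has an integral structure.
-- Proof: conjugation of q-expansion coefficients (via Lagrange interpolation with an eta quotient
-- and level-one forms), Galois descent, and bounded denominators; see Fermat/Agent/S23/Main.lean.
import Fermat.Statements.S23
import Fermat.Agent.S23.Main

set_option autoImplicit false
open CuspForm

namespace Fermat.Agent.S23

theorem result (N : ℕ) [NeZero N] : CuspForm.HasIntegralStructure N 2 := by
  exact hasIntegralStructure_all N 2

end Fermat.Agent.S23
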