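-- Statement S02: a counterexample to Fermat with prime exponent p ≥ 5 yields a Frey package.
import Fermat.Statements.S02

set_option autoImplicit false
open FreyPackage

namespace Fermat.Agent.S02

/-- Coprime case, with `b` even and `a` odd. -/
theorem of_coprime_b_even (a b c : ℤ) (ha : a ≠ 0) (hb : b ≠ 0) (hc : c ≠ 0)
    (p : ℕ) (pp : p.Prime) (hp5 : 5 ≤ p) (H : a ^ p + b ^ p = c ^ p)
    (hab : Int.gcd a b = 1) (hb2 : (2 : ℤ) ∣ b) : Nonempty FreyPackage := by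
  have hpodd : Odd p := pp.odd_of_ne_two (by omega)
  -- `a` is odd
  have ha_odd : ¬ (2 : ℤ) ∣ a := by
    intro h2a
    have h2 : (2 : ℤ) ∣ ((Int.gcd a b : ℕ) : ℤ) := Int.dvd_coe_gcd h2a hb2
    rw [hab] at h2
    norm_num at h2
  have hgcd : gcd a b = 1 := by
    change ((Int.gcd a b : ℕ) : ℤ) = 1
    rw [hab]; rfl
  have hb2' : (b : ZMod 2) = 0 := (ZMod.intCast_zmod_eq_zero_iff_dvd b 2).2 (by exact_mod_cast hb2)
  have hmod : a % 4 = 1 ∨ a % 4 = 3 := by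
    have : a % 2 = 1 := by omega
    omega
  rcases hmod with h1 | h3
  · -- negate everything
    refine ⟨⟨-a, -b, -c, neg_ne_zero.2 ha, neg_ne_zero.2 hb, neg_ne_zero.2 hc, p, pp, hp5, ?_, ?_, ?_, ?_⟩⟩
    · rw [hpodd.neg_pow, hpodd.neg_pow, hpodd.neg_pow, ← H]; ring
    · rw [gcd_neg, neg_gcd]; exact hgcd
    · have h4 : ((-a : ℤ) : ZMod 4) = ((3 : ℤ) : ZMod 4) := by
        rw [ZMod.intCast_eq_intCast_iff_dvd_sub]
        omega
      simpa using h4
    · simp [hb2']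
  · refine ⟨⟨a, b, c, ha, hb, hc, p, pp, hp5, H, hgcd, ?_, hb2'⟩⟩
    have h4 : ((a : ℤ) : ZMod 4) = ((3 : ℤ) : ZMod 4) := by
      rw [ZMod.intCast_eq_intCast_iff_dvd_sub]
      omega
    simpa using h4

/-- Coprime case. -/
theorem of_coprime (a b c : ℤ) (ha : a ≠ 0) (hb : b ≠ 0) (hc : c ≠ 0)
    (p : ℕ) (pp : p.Prime) (hp5 : 5 ≤ p) (H : a ^ p + b ^ p = c ^ p)
    (hab : Int.gcd a b = 1) : Nonempty FreyPackage := by
  have hpodd : Odd p := pp.odd_of_ne_two (by omega)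
  have hp0 : p ≠ 0 := pp.ne_zero
  by_cases hb2 : (2 : ℤ) ∣ b
  · exact of_coprime_b_even a b c ha hb hc p pp hp5 H hab hb2
  by_cases ha2 : (2 : ℤ) ∣ a
  · -- swap a and b
    refine of_coprime_b_even b a c hb ha hc p pp hp5 (by rw [add_comm]; exact H) ?_ ha2
    rw [Int.gcd_comm]; exact hab
  · -- both odd, so c is even; use a^p + (-c)^p = (-b)^p
    have hao : Odd a := by rw [← Int.not_even_iff_odd, even_iff_two_dvd]; exact ha2
    have hbo : Odd b := by rw [← Int.not_even_iff_odd, even_iff_two_dvd]; exact hb2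
    have hce : Even (c ^ p) := by
      rw [← H]
      exact (hao.pow).add_odd (hbo.pow)
    have hc2 : (2 : ℤ) ∣ c := by
      rw [← even_iff_two_dvd]
      exact (Int.even_pow.1 hce).1
    refine of_coprime_b_even a (-c) (-b) ha (neg_ne_zero.2 hc) (neg_ne_zero.2 hb) p pp hp5 ?_ ?_
      ((dvd_neg).2 hc2)
    · rw [hpodd.neg_pow, hpodd.neg_pow, ← H]; ring
    · rw [Int.gcd_neg]
      -- gcd a c = gcd a b
      have h := FreyPackage.gcdab_eq_gcdac (a := a) (b := b) (c := c) (Nat.pos_of_ne_zero hp0) H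
      have h' : ((Int.gcd a b : ℕ) : ℤ) = ((Int.gcd a c : ℕ) : ℤ) := h
      have h'' : Int.gcd a b = Int.gcd a c := by exact_mod_cast h'
      rw [← h'']; exact hab

theorem result (a b c : ℤ) (ha : a ≠ 0) (hb : b ≠ 0) (hc : c ≠ 0) (p : ℕ) (pp : p.Prime) (hp5 : 5 ≤ p) (H : a ^ p + b ^ p = c ^ p) : Nonempty FreyPackage := by
  have hp0 : p ≠ 0 := pp.ne_zero
  -- divide out by the gcd of a and b
  set d : ℕ := Int.gcd a b with hd
  have hdpos : 0 < d := Int.gcd_pos_of_ne_zero_left b ha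
  have hd0 : (d : ℤ) ≠ 0 := by exact_mod_cast hdpos.ne'
  have hda : (d : ℤ) ∣ a := Int.gcd_dvd_left a b
  have hdb : (d : ℤ) ∣ b := Int.gcd_dvd_right a b
  have hdc : (d : ℤ) ∣ c := by
    rw [← Int.pow_dvd_pow_iff hp0, ← H]
    exact dvd_add (pow_dvd_pow_of_dvd hda p) (pow_dvd_pow_of_dvd hdb p)
  obtain ⟨a', ha'⟩ := hda
  obtain ⟨b', hb'⟩ := hdb
  obtain ⟨c', hc'⟩ := hdc
  have ha'0 : a' ≠ 0 := by rintro rfl; exact ha (by rw [ha']; simp)
  have hb'0 : b' ≠ 0 := by rintro rfl; exact hb (by rw [hb']; simp)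
  have hc'0 : c' ≠ 0 := by rintro rfl; exact hc (by rw [hc']; simp)
  have H' : a' ^ p + b' ^ p = c' ^ p := by
    have hdp : ((d : ℤ)) ^ p ≠ 0 := pow_ne_zero p hd0
    apply mul_left_cancel₀ hdp
    rw [mul_add, ← mul_pow, ← mul_pow, ← mul_pow, ← ha', ← hb', ← hc']
    exact H
  have hab' : Int.gcd a' b' = 1 := by
    have h1 : Int.gcd a b = d * Int.gcd a' b' := by
      rw [ha', hb', Int.gcd_mul_left]
      simp
    rw [← hd] at h1
    have h2 : d * 1 = d * Int.gcd a' b' := by rw [mul_one]; exact h1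
    exact (Nat.eq_of_mul_eq_mul_left hdpos h2).symm
  exact of_coprime a' b' c' ha'0 hb'0 hc'0 p pp hp5 H' hab'

end Fermat.Agent.S02
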