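-- Statement S07 (row 7): every weight-2 cusp form of level Gamma0(2) is zero.
-- Proof: Sturm bound for Gamma0(N) from the prelude, with index(Gamma0(2)) <= 4.
import Fermat.Statements.S07
import Fermat.Prelude.Thm_ModularForm_sturm_bound_Gamma0
import Fermat.Prelude.Thm_CongruenceSubgroup_one_mem_strictPeriods_Gamma0

set_option autoImplicit false
open WeierstrassCurve WeierstrassCurve.Affine WeierstrassCurve.Affine.Point
open CuspForm ModularFormClass UpperHalfPlane
open ModularForm

namespace Fermat.Agent.S07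

open scoped MatrixGroups

/-- The "first column mod 2" map on `SL(2, ℤ)`. -/
def firstColModTwo (g : SL(2, ℤ)) : ZMod 2 × ZMod 2 :=
  (((g 0 0 : ℤ) : ZMod 2), ((g 1 0 : ℤ) : ZMod 2))

/-- Two elements of `SL(2, ℤ)` have the same first column mod 2 iff they lie in the same
left coset of `Γ₀(2)`. -/
theorem firstColModTwo_eq_iff (g h : SL(2, ℤ)) :
    firstColModTwo g = firstColModTwo h ↔ g⁻¹ * h ∈ CongruenceSubgroup.Gamma0 2 := by
  rw [CongruenceSubgroup.Gamma0_mem]
  have hg := g.det_coe
  have hh := h.det_coe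
  rw [Matrix.det_fin_two] at hg hh
  have hg2 := congrArg (Int.cast : ℤ → ZMod 2) hg
  have hh2 := congrArg (Int.cast : ℤ → ZMod 2) hh
  simp only [firstColModTwo, Prod.mk.injEq, Matrix.SpecialLinearGroup.coe_mul,
    Matrix.SpecialLinearGroup.coe_inv, Matrix.adjugate_fin_two, Matrix.mul_apply,
    Fin.sum_univ_two, Matrix.of_apply, Matrix.cons_val_zero, Matrix.cons_val_one,
    Matrix.cons_val', Matrix.cons_val_fin_one]
  push_cast at hg2 hh2 ⊢
  generalize ((g 0 0 : ℤ) : ZMod 2) = a at *
  generalize ((g 0 1 : ℤ) : ZMod 2) = b at *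
  generalize ((g 1 0 : ℤ) : ZMod 2) = c at *
  generalize ((g 1 1 : ℤ) : ZMod 2) = d at *
  generalize ((h 0 0 : ℤ) : ZMod 2) = a' at *
  generalize ((h 0 1 : ℤ) : ZMod 2) = b' at *
  generalize ((h 1 0 : ℤ) : ZMod 2) = c' at *
  generalize ((h 1 1 : ℤ) : ZMod 2) = d' at *
  clear hg hh
  revert a b c d a' b' c' d'
  decide

/-- The index of `Γ₀(2)` in `SL(2, ℤ)` is at most `4` (it is in fact `3`). -/
theorem index_Gamma0_two_le : (CongruenceSubgroup.Gamma0 2).index ≤ 4 := by
  classical
  have hcard : Nat.card (ZMod 2 × ZMod 2) = 4 := by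
    simp [Nat.card_eq_fintype_card]
  rw [← hcard, Subgroup.index]
  refine Nat.card_le_card_of_injective
    (Quotient.lift (s := QuotientGroup.leftRel (CongruenceSubgroup.Gamma0 2))
      firstColModTwo ?_) ?_
  · intro g h hgh
    rw [firstColModTwo_eq_iff]
    exact QuotientGroup.leftRel_apply.mp hgh
  · intro x y
    induction x using Quotient.inductionOn with | _ g => ?_
    induction y using Quotient.inductionOn with | _ h => ?_
    intro hxy
    simp only [Quotient.lift_mk] at hxy
    rw [firstColModTwo_eq_iff] at hxy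
    exact Quotient.sound (QuotientGroup.leftRel_apply.mpr hxy)

theorem result (f : CuspForm (CongruenceSubgroup.Gamma0 2) 2) : f = 0 := by
  have hidx := index_Gamma0_two_le
  have h1 : (1 : ℝ) ∈ (Subgroup.map (Matrix.SpecialLinearGroup.mapGL ℝ)
      (CongruenceSubgroup.Gamma0 2)).strictPeriods :=
    CongruenceSubgroup.one_mem_strictPeriods_Gamma0 2
  have hzero : CuspForm.toModularFormₗ f = 0 := by
    refine ModularForm.sturm_bound_Gamma0 2 _ ?_
    intro n hn
    have hb : ((2 : ℤ) * ((CongruenceSubgroup.Gamma0 2).index : ℤ)).toNat / 12 = 0 := by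
      apply Nat.div_eq_of_lt
      omega
    rw [hb] at hn
    obtain rfl : n = 0 := by omega
    have := CuspFormClass.qExpansion_coeff_zero f (h := 1) one_pos h1
    simpa [CuspForm.toModularFormₗ_eq_coe] using this
  exact CuspForm.toModularFormₗ_injective (by simpa using hzero)

end Fermat.Agent.S07
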