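-- Statement S10 (row 9): the mod-p representation of the Frey curve has no Galois-stable cofixed
-- line when p ∈ {5, 7, 13}.  Proof: there is no Frey package with p ∈ {5, 7, 13} at all, by
-- Kummer's theorem (Fermat's Last Theorem for the regular primes 5, 7, 13): ℤ[ζ_p] is a PID,
-- Kummer's lemma holds (explicit units with triangular λ-adic expansions + Dirichlet's unit
-- theorem), Case I by Sophie Germain, Case II by Kummer's descent.
import Fermat.Statements.S10
import Fermat.Agent.S11.CaseII
import Fermat.Agent.S10.KummerLemma
import Fermat.Agent.S10.helper58_CaseI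
import Fermat.Agent.S10.helper12_PID7
import Fermat.Agent.S10.helper12_PID13

set_option autoImplicit false
open WeierstrassCurve WeierstrassCurve.Affine WeierstrassCurve.Affine.Point
open CuspForm ModularFormClass UpperHalfPlane
open FreyPackage

namespace Fermat.Agent.S10

open NumberField in
/-- No Frey package for `p ∈ {5, 7, 11, 13}` once `𝓞 ℚ(ζ_p)` is principal and Kummer's lemma
holds. -/
theorem no_freyPackage_of_pid_of_kummerLemma (p : ℕ) [hp : Fact p.Prime]
    (hp' : p = 5 ∨ p = 7 ∨ p = 11 ∨ p = 13)
    (K : Type*) [Field K] [NumberField K] [IsCyclotomicExtension {p} ℚ K]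
    (hPID : IsPrincipalIdealRing (𝓞 K)) (hK : Fermat.Agent.S11.KummerLemma p K)
    (P : FreyPackage) (hP : P.p = p) : False := by
  have hp2 : p ≠ 2 := by rcases hp' with h | h | h | h <;> omega
  have habc : P.a * P.b * P.c ≠ 0 := P.habc0
  have hab : IsCoprime P.a P.b := by
    rw [Int.isCoprime_iff_gcd_eq_one]
    have h := P.hgcdab
    rw [← Int.coe_gcd] at h
    exact_mod_cast h
  have H := P.hFLT
  rw [hP] at H
  by_cases hdvd : (p : ℤ) ∣ P.a * P.b * P.c
  · exact Fermat.Agent.S11.caseII (K := K) hp2 hK P.a P.b P.c habc hab hdvd H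
  · exact Fermat.Agent.S10.helper58.caseI hp' P.a P.b P.c hab hdvd H

set_option backward.isDefEq.respectTransparency false in
/-- There is no Frey package with `p = 5` (Fermat's Last Theorem for exponent `5`). -/
theorem no_freyPackage_five (P : FreyPackage) (hp : P.p = 5) : False := by
  have : Fact (Nat.Prime 5) := ⟨by norm_num⟩
  exact no_freyPackage_of_pid_of_kummerLemma 5 (by norm_num) (CyclotomicField 5 ℚ)
    (IsCyclotomicExtension.Rat.five_pid _) (kummerLemma_five _) P hp

set_option backward.isDefEq.respectTransparency false in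
/-- There is no Frey package with `p = 7` (Fermat's Last Theorem for exponent `7`). -/
theorem no_freyPackage_seven (P : FreyPackage) (hp : P.p = 7) : False := by
  have : Fact (Nat.Prime 7) := ⟨by norm_num⟩
  exact no_freyPackage_of_pid_of_kummerLemma 7 (by norm_num) (CyclotomicField 7 ℚ)
    (Fermat.Agent.S10.helper12.pid7 _) (kummerLemma_seven _) P hp

set_option backward.isDefEq.respectTransparency false in
/-- There is no Frey package with `p = 13` (Fermat's Last Theorem for exponent `13`). -/
theorem no_freyPackage_thirteen (P : FreyPackage) (hp : P.p = 13) : False := by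
  have : Fact (Nat.Prime 13) := ⟨by norm_num⟩
  exact no_freyPackage_of_pid_of_kummerLemma 13 (by norm_num) (CyclotomicField 13 ℚ)
    (Fermat.Agent.S10.helper12.pid13 _) (kummerLemma_thirteen _) P hp

theorem result (P : FreyPackage) (hp : P.p = 5 ∨ P.p = 7 ∨ P.p = 13) : ¬ HasGaloisStableCofixedLine (K := AlgebraicClosure ℚ) ℚ P.freyCurve P.p := by
  intro _
  rcases hp with h | h | h
  · exact no_freyPackage_five P h
  · exact no_freyPackage_seven P h
  · exact no_freyPackage_thirteen P h

end Fermat.Agent.S10
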