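-- Statement S11 (row 10): the mod-11 representation of the Frey curve has no Galois-stable
-- cofixed line.  Proof: there is no Frey package with `p = 11` at all, by Kummer's theorem
-- (Fermat's Last Theorem for the regular prime 11): `ℤ[ζ₁₁]` is a PID, Kummer's lemma holds for
-- `p = 11` (explicit independent units + Dirichlet's unit theorem), Case I by Sophie Germain,
-- Case II by Kummer's descent.
import Fermat.Statements.S11
import Fermat.Agent.S11.Assembly
import Fermat.Agent.S11.Units11
import Fermat.Agent.S10.helper12_PID11

set_option autoImplicit false
open WeierstrassCurve WeierstrassCurve.Affine WeierstrassCurve.Affine.Point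
open CuspForm ModularFormClass UpperHalfPlane
open FreyPackage

namespace Fermat.Agent.S11

set_option backward.isDefEq.respectTransparency false in
/-- There is no Frey package with `p = 11` (Fermat's Last Theorem for exponent `11`). -/
theorem no_freyPackage_eleven (P : FreyPackage) (hp : P.p = 11) : False := by
  have : Fact (Nat.Prime 11) := factPrimeEleven
  obtain ⟨v, hv⟩ := exists_indep_units_eleven (CyclotomicField 11 ℚ)
  exact no_freyPackage_of_pid_of_units 11 (by norm_num) (CyclotomicField 11 ℚ)
    (Fermat.Agent.S10.helper12.pid11 _) v hv P hp

theorem result (P : FreyPackage) (hp : P.p = 11) : ¬ HasGaloisStableCofixedLine (K := AlgebraicClosure ℚ) ℚ P.freyCurve P.p := by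
  intro _
  exact no_freyPackage_eleven P hp

end Fermat.Agent.S11
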