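-- Statement S13 (row 12): if the mod-p representation of the Frey curve is reducible, it has a
-- Galois-stable cofixed line.  Cluster proof, assembled by helper38:
--   (1) E[p] is nontrivial with at most p^2 elements      (helper64, ladder torsion polynomial)
--   (2) inertia at odd q, q not p, acts trivially          (S05, helper5 and cluster)
--       inertia at 2 acts unipotently                      (helper1)
--   (3) at p: (sigma - 1) E[p] lies in a proper subgroup   (helper72 Eisenstein, helper5/helper60)
--   (4) Minkowski: no unramified extension of Q            (helper92, helper91)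
--   (5) no rational p-torsion (analysis at 2)              (helper13, helper95, helper7)
--   (6) Galois-module assembly                             (helper38)
import Fermat.Statements.S13
import Fermat.Agent.S13.helper38_Adapters
import Fermat.Agent.S13.helper64_TorsionCount
import Fermat.Agent.S13.helper1_UnipotentAt
import Fermat.Agent.S13.helper72_FreyAtP
import Fermat.Agent.S13.helper92_Minkowski
import Fermat.Agent.S13.NoRatTors
import Fermat.Agent.S05

set_option autoImplicit false
open WeierstrassCurve WeierstrassCurve.Affine WeierstrassCurve.Affine.Point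
open CuspForm ModularFormClass UpperHalfPlane
open FreyPackage

namespace Fermat.Agent.S13

theorem result (P : FreyPackage) (hred : ¬ GaloisRepIsIrreducible (K := AlgebraicClosure ℚ) ℚ P.freyCurve P.p) : HasGaloisStableCofixedLine (K := AlgebraicClosure ℚ) ℚ P.freyCurve P.p := by
  -- input (1)
  have hΔ : P.freyCurve.Δ ≠ 0 := by
    rw [← Fermat.Agent.S04.freyCurveInt_map, WeierstrassCurve.map_Δ]
    simpa using Fermat.Agent.S04.freyCurveInt_Δ_ne_zero P
  have hΔ' : (P.freyCurve.toAffine⁄(AlgebraicClosure ℚ)).Δ ≠ 0 := by
    have h : (P.freyCurve.toAffine⁄(AlgebraicClosure ℚ)).Δ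
        = algebraMap ℚ (AlgebraicClosure ℚ) P.freyCurve.Δ := P.freyCurve.map_Δ _
    rw [h]
    exact (_root_.map_ne_zero _).mpr hΔ
  have hp1 : 1 < P.p := by have := P.hp5; omega
  have hpK : ((P.p : ℕ) : AlgebraicClosure ℚ) ≠ 0 := by
    have := P.hp0
    exact_mod_cast this
  have h1 : helper38.TorsionSmall P.freyCurve P.p :=
    helper64.torsionBy_small (P.freyCurve.toAffine⁄(AlgebraicClosure ℚ)) hΔ' P.hp_odd hp1 hpK
  -- input (4)
  have h4 : helper38.Minkowski := by
    intro H hn ho hI
    haveI := hn
    exact helper92.eq_top_of_exists_inertiaSubgroupIn_le H ho hI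
  exact helper38.s13_of_inputs_line P h1
    (fun q hq hq2 hqp => Fermat.Agent.S05.result P hq hq2 hqp)
    (helper1.frey_unipotentAt_two P)
    (fun N₀ hN hbot htop => helper72.frey_properAt P N₀ hN hbot htop)
    h4 (frey_noRationalTorsion P) hred

end Fermat.Agent.S13
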