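-- Statement S14 (row 13): the Ext-vanishing property `ExtVanishingCts p` for every prime `p ≥ 3`.
-- Route R2 (reciprocity-free): bridge (helper69) + Kummer generator (helper54) + `core_kummer`
-- (helper99: Thaine relation (helper62/helper99), Theorem G (helper40), cyclotomic unit E₂
-- (helper15), units (helper9), endgame (helper96), class eigen (helper77)) + case p = 3 (helper71).
import Fermat.Statements.S14
import Fermat.Agent.S14.helper54_R2Wiring
import Fermat.Agent.S14.helper99_CoreKummer

set_option autoImplicit false
open ExtCitation

namespace Fermat.Agent.S14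

theorem result {p : ℕ} [Fact p.Prime] (h3 : 3 ≤ p) :
    ExtCitation.ExtVanishingCts p :=
  Fermat.Agent.S14.helper54.extVanishingCts_of_coreKummer h3
    (fun h5 _ _ _ _ _ hζ α hα hb hc hd =>
      Fermat.Agent.S14.helper99.core_kummer h5 hζ α hα hb hc hd)

end Fermat.Agent.S14
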