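import Fermat.Statements.S16
import Fermat.Agent.S16.helper16_Card
import Fermat.Agent.S16.helper66_UpperFinal
import Fermat.Agent.S16.helper5_Glue
import Fermat.Agent.S16.helper58_U3b
import Fermat.Agent.S16.helper76_H8Final
import Fermat.Agent.S16.helper80_LowerBound

set_option autoImplicit false
open ModularCurve CuspForm
open ModularCurve

namespace Fermat.Agent.S16

theorem result
    (p : ℕ) [Fact p.Prime] :
    Nat.card (↥(heckeLatticeAlgebra p ∅) ⧸
        Ideal.map ((latticeRestrictHom p ∅).toRingHom.comp (heckeEvalForms p 2))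
          (eisensteinIdeal p)) =
      eisensteinNumerator p := by
  have hU : Fermat.Agent.S16.helper16.UpperBound p :=
    Fermat.Agent.S16.helper66.upperBound_of_inputs p
      (fun _ => Fermat.Agent.S16.helper5.stepA p)
      (fun _ ℓ hℓ h5 hℓp => Fermat.Agent.S16.helper58.not_unitConst_ge_five p ℓ hℓ h5 hℓp)
      (fun _ h => Fermat.Agent.S16.helper5.not_unitConst_U3a p h)
      (fun _ h => Fermat.Agent.S16.helper58.not_unitConst_three p h)
      (fun _ h => Fermat.Agent.S16.helper5.not_unitConst_U2a p h)
      (fun _ h => Fermat.Agent.S16.helper5.not_unitConst_U2b p h)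
      (fun _ h => Fermat.Agent.S16.helper76.not_unitConst_two_three p h)
  exact Fermat.Agent.S16.helper16.s16_of_bounds p hU (Fermat.Agent.S16.helper80.lowerBound p)

end Fermat.Agent.S16
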