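import Fermat.Statements.S18
import Fermat.Agent.S18.helper19_Final
import Fermat.Agent.P2.helper29_Core3
import Fermat.Agent.P2.helper81_CuspReg

/-!
# S18 (helper19): a point of `J₀(N)` killed by some `m` prime to `ℓ` whose reduction mod `ℓ`
vanishes is zero.

Assembly: `helper19.s18_of_coreInj` (S18 endgame: wiring of the Prelude reduction map, Kummer
descent and transfer from the auxiliary level `4N` / `9N`) applied to the output of P2-CORE
(`helper29.coreInj_of_cuspReg`, injectivity of the reduction at good levels), whose last leaf is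
`helper81.cuspRegStatement_of_goodPair`.
-/

set_option autoImplicit false
open ModularCurve

namespace Fermat.Agent.S18

theorem result (N : ℕ) [NeZero N] {ℓ : ℕ}
    [Fact ℓ.Prime] (hℓN : ¬ ℓ ∣ N) (A : ValuationSubring (AlgebraicClosure ℚ)) (hA : A.LiesOverPrime ℓ)
    (h : ModularCurve.ReductionInputsModL A N) (m : ℕ) (hm : ¬ ℓ ∣ m) (z : ModularCurve.JZero N)
    (hmz : m • z = 0) (hz : ModularCurve.reductionModL A N z = 0) :
    z = 0 := by
  exact Fermat.Agent.S18.helper19.s18_of_coreInj
    (Fermat.Agent.P2.helper29.coreInj_of_cuspReg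
      (fun M _ A h => Fermat.Agent.P2.helper81.cuspRegStatement_of_goodPair M A h))
    N hℓN A hA h m hm z hmz hz

end Fermat.Agent.S18
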