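-- Statement S24 (row 23): the genus of the function field of X0(N) over Qbar equals the
-- classical genus formula.  Final assembly (helper80) of the S24 cluster:
--   * function-field theory (places, zero counts, differentials, Riemann-Hurwitz):
--     helper75, helper82, helper88, helper55;
--   * coset combinatorics of SL(2,Z)/Gamma0(N) and the Euler characteristic bound:
--     helper37, helper27, helper83, helper18;
--   * analytic inputs (bridge to the analytic j-function, degree of F_N over Qbar(j), fibres of j
--     over 0, 1728, infinity and generic points): helper17, helper77, helper24, helper37,
--     helper48, helper99, helper43.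
import Fermat.Statements.S24
import Fermat.Agent.S24.helper80_Final2
import Fermat.Agent.S24.helper80_DegreeLB
import Fermat.Agent.S24.helper77_Degree
import Fermat.Agent.S24.helper24_Interior
import Fermat.Agent.S24.helper24_Cusp

set_option autoImplicit false
open ModularCurve

namespace Fermat.Agent.S24

theorem result (N : ℕ) [NeZero N]
    [AlgebraicCurve.HasCanonicalDivisor (K := AlgebraicClosure ℚ) (F := ↥(ModularCurve.modularFunctionFieldBar N))] :
    (AlgebraicCurve.genus (AlgebraicClosure ℚ) ↥(ModularCurve.modularFunctionFieldBar N) : ℚ)
      = ModularCurve.genusFormula N := by
  have hfd := helper77.an_finiteDimensional N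
  have hfinrank := le_antisymm (helper77.an_finrank_le N) (helper80.an_finrank_ge N)
  exact helper80.genus_eq_genusFormula_of_analytic N hfd hfinrank
    (helper24.an_unramified_of N hfd hfinrank)
    (helper24.an_count_1728_of N hfd hfinrank)
    (helper24.an_count_0_of N hfd hfinrank)
    (helper24.an_count_infty_of N hfd hfinrank)

end Fermat.Agent.S24
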