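-- Statement S27 (row 26): the number of degree-0 divisor classes killed by ℓ^k is ℓ^(2gk).
-- Proof: program P5 (Riemann-Hilbert dictionary over ℂ + Lefschetz principle), final wiring in
-- Fermat/Agent/P5/helper25_S27Wire.lean.
import Fermat.Statements.S27
import Fermat.Agent.P5.helper25_S27Wire

set_option autoImplicit false
set_option autoImplicit false
open AlgebraicCurve
open AlgebraicCurve AlgebraicCurve.Pic0

namespace Fermat.Agent.S27

theorem result
    (K F : Type*) [Field K] [Field F] [Algebra K F] [IsAlgClosed K] [CharZero K]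
    [IsCurveOver K F] [Algebra.EssFiniteType K F]
    (ℓ : ℕ) [Fact ℓ.Prime] (k : ℕ) :
    Nat.card (Pic0.torsion K F (ℓ ^ k)) = ℓ ^ (2 * genusFF K F * k) := by
  exact Fermat.Agent.P5.helper25.s27_final K F ℓ k

end Fermat.Agent.S27
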