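import Fermat.Statements.S29
import Fermat.Agent.P3.helper54_Wire29
import Fermat.Agent.P3.helper32_P3Uncond

set_option autoImplicit false
open CuspForm CuspForm.IsNormalizedEigenform

namespace Fermat.Agent.S29

theorem result
    {N : ℕ} {g : CuspForm (CongruenceSubgroup.Gamma0 N) 2} (hg : g.IsNormalizedEigenform)
    {p : ℕ} (hp : p.Prime) {k : Type} [Field k] [CharP k p]
    (φ : integralClosure ℤ ℂ →+* k) :
    ∃ ρ : ResidualGaloisRep k, ρ.IsAttachedTo g φ ∧
      ∀ ℓ : ℕ, ℓ.Prime → ¬ ℓ ∣ N * p → ρ.IsUnramifiedAt ℓ :=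
  (show Fermat.Agent.P3.helper54.S29Statement from
    Fermat.Agent.P3.helper54.s29_of_strongS30
      (Fermat.Agent.P3.helper32.strongS30_of_cuspReg Fermat.Agent.P3.helper32.cuspRegAtGoodPairs)) hg hp φ

end Fermat.Agent.S29
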