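import Fermat.Statements.S34
import Fermat.Agent.T2.helper72_Asm34

/-!
# S34: unipotent inertia at a prime `q ≠ p` exactly dividing the level

In a Hecke–Galois datum of level `N` away from `S`, the Galois representation has unipotent
inertia at every prime `q ≠ p` with `q ∥ N`.

Route (tier 2): the datum is compared (Chebotarev, pseudo-representations) with the Tate module
of `J₀(M)`, `M = 4N` or `9N`, in Kummer form; at a place over `q ∥ M` the function field of
`X₀(M)` has two Gauss valuations `w₁`, `w₂ = w₁ ∘ W` (`W` = Atkin–Lehner), and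
`(σ - 1)² = 0` on `J₀(M)[p^∞]` for `σ` in inertia follows from the ideal step for pairs
(seminormality along Frobenius graphs), the disc step and the pivot step for pairs.
Assembly: `helper72.s34Statement` (boxes by helper20, helper22, helper23, helper34, helper36,
helper45, helper51, helper58, helper74, helper87, helper96 and P2 / P3).
-/

set_option autoImplicit false
open IsLocalRing
open CuspForm CuspForm.HeckeGaloisRepDatum

namespace Fermat.Agent.S34

theorem result
    {𝒪 : Type} [CommRing 𝒪] [IsDomain 𝒪] [IsDiscreteValuationRing 𝒪]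
    [IsAdicComplete (maximalIdeal 𝒪) 𝒪] [Finite (ResidueField 𝒪)] [CharZero 𝒪]
    {p : ℕ} (hp : p.Prime) (hp𝒪 : (p : 𝒪) ∈ maximalIdeal 𝒪)
    {N : ℕ} [NeZero N] {S : Finset ℕ} (hpS : p ∈ S) (hNS : ∀ q : ℕ, q.Prime → q ∣ N → q ∈ S)
    {θ : CuspForm.heckeAlgebra N 2 (↑S : Set ℕ) →+* ResidueField 𝒪}
    {T : Type} [CommRing T] [IsLocalRing T] [IsNoetherianRing T]
    [IsAdicComplete (maximalIdeal T) T] [Algebra 𝒪 T] [IsLocalHom (algebraMap 𝒪 T)]
    [Module.Finite 𝒪 T] [Module.Free 𝒪 T]
    (H : CuspForm.HeckeGaloisRepDatum N (↑S : Set ℕ) 𝒪 θ T)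
    (q : ℕ) (hq : q.Prime) (hqp : q ≠ p) (hqN : q ∣ N) (hq2 : ¬ q ^ 2 ∣ N) :
    H.ρ.IsUnipotentOnInertiaAt q :=
  Fermat.Agent.T2.helper72.s34Statement hp hp𝒪 hpS hNS H q hq hqp hqN hq2

end Fermat.Agent.S34
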