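import Fermat.Statements.S37
import Fermat.Agent.S37.helper16_RigFinal

/-!
# S37 (helper16, coordinator of program S37): the Eichler-Shimura congruence relation in the
Prelude's packaged form `SpecializationExists` for `J₀(N)`.

Assembly (BLUEPRINT S37 v1): `helper16.s37_of_rho` (abstract specialization from a reduction
datum `ρ`), `ρ = reductionModL A (N r) ∘ pullPic N r` at the good auxiliary level `N r`
(`r = 4` or `9`): [RD-E] reduction of places (helper16), [RD-P] (helper61), rigidity (helper77)
and its instances (helper16), [PINJ] (helper39), injectivity of the reduction on torsion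
(S18 machinery: helper19, P2-CORE).
-/

set_option autoImplicit false
open ModularCurve

namespace Fermat.Agent.S37

theorem result (N p : ℕ) [NeZero N] (hcomm : ModularCurve.HeckeOperatorsCommuteBar N) : letI := ModularCurve.heckeModuleBar N; ∀ (_ : SMulCommClass (AlgebraicClosure ℚ ≃ₐ[ℚ] AlgebraicClosure ℚ) ModularCurve.HeckeAlg (ModularCurve.JZero N)), ModularCurve.SpecializationExists (K := ℚ) (L := AlgebraicClosure ℚ) N p (ModularCurve.JZero N) :=
  Fermat.Agent.S37.helper16.s37 N p hcomm

end Fermat.Agent.S37
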