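import Fermat.Statements.S49
import Fermat.Agent.S49.Formal
import Fermat.Agent.S49.Algebra
import Fermat.Agent.S49.QCoeff
import Fermat.Agent.S49.Mod3
import Fermat.Agent.S49.HeckeC

set_option autoImplicit false
open CuspForm EisensteinWeightOne CongruenceSubgroup ModularFormClass
open FLT FLT.AbstractIntegralStructure

namespace Fermat.Agent.S49

theorem result
    {N : ℕ} [NeZero N] (h : CuspForm.HasIntegralBasis N) {a : ℕ → ℤ}
    (heig : FormalHecke.IsEigensystem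
      (fun ℓ => if ℓ ∣ N then 0 else ((chiNegThree ℓ : ℤ) : ℤ)) a)
    (hreal : CuspForm.IsLatticeRealized N a) :
    ∃ (f : CuspForm (Gamma0 N) 2) (_ : f.IsNormalizedEigenform)
      (𝔪' : Ideal (integralClosure ℤ ℂ)), 𝔪'.IsMaximal ∧
      ((3 : ℕ) : integralClosure ℤ ℂ) ∈ 𝔪' ∧
      ∀ (ℓ : ℕ) (_ : ℓ.Prime) (_ : ¬ ℓ ∣ N),
        ∃ c : integralClosure ℤ ℂ, (c : ℂ) = ModularFormClass.qCoeff f ℓ ∧
          c - (a ℓ : integralClosure ℤ ℂ) ∈ 𝔪' := by
  obtain ⟨f₀, -, af, haf, hdiv⟩ := hreal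
  have hcong : ∀ n, (3 : ℤ) ∣ af n - a n := fun n => by
    have := dvd_add (hdiv n) (bridge_coeff_mod3 a n)
    rwa [sub_add_sub_cancel] at this
  have hf₀ : f₀ ∈ CuspForm.intLattice N 2 := by
    rw [mem_intLat_iff]
    exact fun n => ⟨af n, (haf n).symm⟩
  have hfin : FiniteDimensional ℂ (CuspForm (Gamma0 N) 2) :=
    finite_of_fg_lattice (CuspForm.intLattice N 2) (CuspForm.intLattice_fg N 2)
      (span_intLat_eq_top h)
  have h𝔪 : (mIdeal N f₀).IsMaximal := mIdeal_isMaximal heig f₀ af haf hcong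
  have hfinA : FiniteDimensional ℂ (heckeAlgC N) :=
    (exists_vector_of_pairing (heckeRep N) (heckeRep_injective N) (qcLin N 2 1)
      (pairing_nondeg N) 0).1
  obtain ⟨χ, hχ⟩ := exists_algHom_ker_le (K := ℂ) (heckeIncl N) (heckeIncl_injective N)
    (mIdeal N f₀)
  obtain ⟨g, hg1, hg⟩ := exists_eigenform_of_character χ
  have hgN := isNormalizedEigenform_of_eigen χ g hg1 hg
  let φ : CuspForm.heckeAlgebra N 2 ∅ →+* integralClosure ℤ ℂ :=
    ((χ : heckeAlgC N →+* ℂ).comp (heckeIncl N)).codRestrict (integralClosure ℤ ℂ)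
      (fun T => isIntegral_char h χ T)
  have hφ : ∀ T, ((φ T : integralClosure ℤ ℂ) : ℂ) = χ (heckeIncl N T) := fun T => rfl
  obtain ⟨𝔪', hmax, hle⟩ := exists_maximal_ideal_map_le φ (mIdeal N f₀) h𝔪.ne_top
    (fun x hx => hχ x (by
      have h1 : φ x = 0 := hx
      have h2 := congrArg (fun z : integralClosure ℤ ℂ => (z : ℂ)) h1
      simpa [hφ] using h2))
  refine ⟨g, hgN, 𝔪', hmax, ?_, fun ℓ hℓ hℓN =>
    ⟨φ (CuspForm.heckeAlgebra.T hℓ hℓN (Set.notMem_empty _)), ?_, ?_⟩⟩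
  · have := hle _ (three_mem_mIdeal f₀ hf₀)
    rwa [map_natCast] at this
  · rw [hφ]
    exact (qCoeff_prime_of_eigen χ g hg1 hg hℓ hℓN).symm
  · have := hle _ (heckeT_sub_mem heig f₀ af haf hcong hℓ hℓN)
    rwa [map_sub, map_intCast] at this

end Fermat.Agent.S49
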