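-- Statement S51 (row 45): a semistable integral Weierstrass curve has irreducible mod 3 or
-- mod 5 representation.  Assembly (helper51) of the cluster pieces:
--   * `exists_three_data`  (helper51, Fermat/Agent/S51/Three.lean)
--   * `helper8.exists_five_data`  (helper8, Fermat/Agent/S51/helper8_FiveGalois.lean)
--   * `helper2.descent15`  (helper2, rational points of y^2 = x(x+9)(x-16))
--   * `helper38.s51_of_inputs`  (helper38 endgame algebra + helper44 5-adic obstruction)
import Fermat.Statements.S51
import Fermat.Agent.S51.Three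
import Fermat.Agent.S51.helper8_FiveGalois
import Fermat.Agent.S51.helper2_Descent15
import Fermat.Agent.S51.helper38_Assembly

set_option autoImplicit false
open WeierstrassCurve WeierstrassCurve.Affine WeierstrassCurve.Affine.Point
open CuspForm ModularFormClass UpperHalfPlane
open WeierstrassCurve

namespace Fermat.Agent.S51

theorem result (W : WeierstrassCurve ℤ) (hΔ : W.Δ ≠ 0) (hW : W.IsSemistableModel) : W.ModRepIsIrreducible 3 ∨ W.ModRepIsIrreducible 5 := by
  refine helper38.s51_of_inputs helper2.descent15 ?_ ?_ W hΔ hW
  · intro W hΔ h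
    exact helper38.threeData_of_int W (exists_three_data W hΔ h)
  · intro W hΔ h
    have hΔ' : (W.map (Int.castRingHom ℚ)).Δ ≠ 0 := by
      rw [WeierstrassCurve.map_Δ]
      simpa using hΔ
    obtain ⟨s, t, x₁, x₂, hs, ht, hfd⟩ :=
      helper8.exists_five_data (W.map (Int.castRingHom ℚ)) hΔ' h
    refine ⟨s, t, x₁, x₂, hs, ht, hfd.ne, ?_, ?_⟩
    · have h1 := hfd.dup₁
      simpa only [helper8.dupNum, helper8.psi2sq, WeierstrassCurve.baseChange,
        WeierstrassCurve.map_b₂, WeierstrassCurve.map_b₄, WeierstrassCurve.map_b₆,
        WeierstrassCurve.map_b₈] using h1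
    · have h2 := hfd.dup₂
      simpa only [helper8.dupNum, helper8.psi2sq, WeierstrassCurve.baseChange,
        WeierstrassCurve.map_b₂, WeierstrassCurve.map_b₄, WeierstrassCurve.map_b₆,
        WeierstrassCurve.map_b₈] using h2

end Fermat.Agent.S51
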