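-- S52 (row 46): the 3-5 switch.  Closure: P7 (helper73 FAM core, helper47 CHOICE + light wiring,
-- helper52/helper92 CE, helper19 CONG/VC, helper20 AUX, helper59 LOC3, helper64 CONT).
-- LIGHT closure (helper47): `rat` by Galois descent, the memory-heavy helper66_KleinFam* files
-- are not imported (they exhaust 16 GiB when built in parallel).
import Fermat.Statements.S52
import Fermat.Agent.P7.helper47_S52Light

set_option autoImplicit false
open WeierstrassCurve WeierstrassCurve.Affine WeierstrassCurve.Affine.Point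
open CuspForm ModularFormClass UpperHalfPlane
open WeierstrassCurve

namespace Fermat.Agent.S52

theorem result (W : WeierstrassCurve ℤ) (hΔ : W.Δ ≠ 0) (hW : W.IsSemistableModel) (h5 : W.ModRepIsIrreducible 5) : ∃ W' : WeierstrassCurve ℤ, W'.Δ ≠ 0 ∧ W'.IsSemistableModel ∧ W'.ModRepIsIrreducible 3 ∧ ∀ ℓ : ℕ, ℓ.Prime → W.IsGoodPrimeFor ℓ → W'.IsGoodPrimeFor ℓ → ℓ ≠ 5 → (5 : ℤ) ∣ (W'.apOfModel ℓ - W.apOfModel ℓ) :=
  Fermat.Agent.P7.helper47.s52_light W hΔ hW

end Fermat.Agent.S52
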