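-- Statement S53 (row 47): existence of the universal deformation ring
-- (the theorem GaloisRep.nonempty_deformationRingData).
import Fermat.Statements.S53
import Fermat.Agent.S53.ProRepMain
import Fermat.Agent.S53.helper56_LiftFunctor
import Fermat.Agent.S53.helper40_A2

set_option autoImplicit false
set_option autoImplicit false
open GaloisRep

namespace Fermat.Agent.S53

theorem result
    (𝒪 : Type) [CommRing 𝒪] [IsDomain 𝒪] [IsDiscreteValuationRing 𝒪]
    [IsAdicComplete (IsLocalRing.maximalIdeal 𝒪) 𝒪] [Finite (IsLocalRing.ResidueField 𝒪)]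
    (ρbar : ResidualGaloisRep (IsLocalRing.ResidueField 𝒪))
    (𝒟 : ∀ ⦃A : Type⦄ [CommRing A] [IsLocalRing A] [Algebra 𝒪 A], GaloisRepAdic A → Prop)
    (habs : ρbar.IsAbsolutelyIrreducible)
    (h𝒟 : GaloisRep.IsDeformationCondition 𝒪 𝒟)
    (hbar : 𝒟 (GaloisRepAdic.ofResidualGaloisRep ρbar))
    (hfin : GaloisRep.TangentFinite 𝒪 ρbar 𝒟) :
    Nonempty (GaloisRep.DeformationRingData 𝒪 ρbar 𝒟) := by
  obtain ⟨D⟩ := helper56.nonempty_normData ρbar habs
  obtain ⟨P⟩ := nonempty_proRep (helper56.galLiftFunctor D h𝒟 hbar hfin)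
  exact helper40.nonempty_deformationRingData_of_proRep ρbar 𝒟 habs h𝒟 _ D.bbar D.gN D.iN D.jN
    D.hker (helper56.galLiftFunctor_hbase D h𝒟 hbar hfin)
    (helper56.galLiftFunctor_hN D h𝒟 hbar hfin) P

end Fermat.Agent.S53
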