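-- Statement S57 (row 51): patching, descent step.
import Fermat.Statements.S57
import Fermat.Agent.S57.helper98_General
import Fermat.Agent.S57.helper98_PowerSeries
import Fermat.Agent.S57.helper98_Wiring

set_option autoImplicit false
open Algebra Algebra.PatchingLevel

namespace Fermat.Agent.S57

theorem result
    {𝒪 : Type} [CommRing 𝒪] [IsDomain 𝒪] [IsDiscreteValuationRing 𝒪]
    {r : ℕ} {R : Type} [CommRing R] [Algebra 𝒪 R]
    {M : Type} [AddCommGroup M] [Module R M] [Nontrivial M]
    (L : Algebra.PatchingLevel 𝒪 r R M ⊥) :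
    Module.Free R M ∧ Module.annihilator R M = ⊥ ∧
      RingHom.ker L.ψ = Ideal.span (Set.range fun i : Fin r => L.φ (MvPowerSeries.X i)) := by
  classical
  -- a uniformizer
  obtain ⟨ϖ, hϖ⟩ := IsDiscreteValuationRing.exists_irreducible 𝒪
  have hmax : IsLocalRing.maximalIdeal 𝒪 = Ideal.span {ϖ} := hϖ.maximalIdeal_eq
  have hϖ0 : ∀ a : 𝒪, ϖ * a = 0 → a = 0 := by
    intro a ha
    rcases mul_eq_zero.mp ha with h | h
    · exact absurd h hϖ.ne_zero
    · exact h
  -- the regular sequence `X₀, …, X_{r-1}, ϖ`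
  have hl : (List.finRange r).Nodup := List.nodup_finRange r
  have hl' : ∀ s : Fin r, s ∈ List.finRange r := List.mem_finRange
  have hreg := helper98.isWeaklyRegular_X_append_C (A := 𝒪) (List.finRange r) hl hl' ϖ hϖ0
  have hrs := helper98.ofList_X_append_C_eq_maximalIdeal (A := 𝒪) (List.finRange r) hl' ϖ hmax
  have hk := helper98.hasProjectiveDimensionLE_residue _ hreg hrs
  -- `R` is nontrivial
  have hR : Nontrivial R := by
    by_contra h
    rw [not_nontrivial_iff_subsingleton] at h
    have : Subsingleton M := Module.subsingleton R M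
    exact not_subsingleton M this
  have hnu : ∀ f : MvPowerSeries (Fin r) 𝒪, L.ψ f = 0 →
      f ∈ IsLocalRing.maximalIdeal (MvPowerSeries (Fin r) 𝒪) := by
    intro f hf hu
    have := hu.map L.ψ
    rw [hf] at this
    exact not_isUnit_zero this
  have hmem : ∀ x ∈ (List.finRange r).map (MvPowerSeries.X : Fin r → MvPowerSeries (Fin r) 𝒪)
      ++ [MvPowerSeries.C ϖ], L.φ.toRingHom x ∈
        IsLocalRing.maximalIdeal (MvPowerSeries (Fin r) 𝒪) := by
    intro x hx
    rcases List.mem_append.mp hx with hx | hx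
    · obtain ⟨i, _, rfl⟩ := List.mem_map.mp hx
      exact hnu _ (L.ψ_φ_X i)
    · rw [List.mem_singleton] at hx
      subst hx
      have h1 : L.φ.toRingHom (MvPowerSeries.C ϖ) = MvPowerSeries.C ϖ := by
        rw [MvPowerSeries.c_eq_algebraMap]
        exact L.φ.commutes ϖ
      rw [h1, ← hrs]
      exact Ideal.subset_span (List.mem_append_right _ (List.mem_singleton_self _))
  have hspan : ∀ x : L.N, ∃ c : Fin L.d → MvPowerSeries (Fin r) 𝒪,
      x = ∑ i, L.φ.toRingHom (c i) • L.b i := L.b_span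
  have hrel : ∀ c : Fin L.d → MvPowerSeries (Fin r) 𝒪,
      ∑ i, L.φ.toRingHom (c i) • L.b i = 0 → c = 0 := by
    intro c hc
    funext i
    have := (L.b_rel c).mp hc i
    rwa [Ideal.mem_bot] at this
  have hfree : Module.Free (MvPowerSeries (Fin r) 𝒪) L.N :=
    helper98.free_of_coord L.φ.toRingHom L.b hspan hrel _ hrs hreg hmem hk
  have hI : Ideal.span (Set.range fun i : Fin r => L.φ (MvPowerSeries.X i)) ≤
      RingHom.ker L.ψ.toRingHom := by
    rw [Ideal.span_le]
    rintro _ ⟨i, rfl⟩
    exact L.ψ_φ_X i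
  exact helper98.free_and_ann_and_ker L.ψ.toRingHom L.π L.ψ_surjective _ hI L.π_smul
    L.π_surjective L.ker_π

end Fermat.Agent.S57
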